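import Fermat.Agent.S57.Params
import Fermat.Prelude.Def_Algebra_PatchingDatum
import Mathlib.RingTheory.DiscreteValuationRing.Basic

set_option autoImplicit false

open RingTheory.Sequence IsLocalRing Pointwise

namespace Fermat.Agent.S57

section

variable {𝒪 : Type} [CommRing 𝒪]
    {r : ℕ} {R : Type} [CommRing R] [Algebra 𝒪 R]
    {M : Type} [AddCommGroup M] [Module R M]
    (L : Algebra.PatchingLevel 𝒪 r R M ⊥)

/-- The coordinate map of the patched module, as an additive equivalence. -/
noncomputable def coordEquiv : (Fin L.d → MvPowerSeries (Fin r) 𝒪) ≃+ L.N :=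
  AddEquiv.ofBijective
    (AddMonoidHom.mk' (fun c => ∑ i, L.φ (c i) • L.b i) (by
      intro c c'
      simp only [Pi.add_apply, map_add, add_smul, Finset.sum_add_distrib]))
    (by
      constructor
      · rw [injective_iff_map_eq_zero]
        intro c hc
        have := (L.b_rel c).mp hc
        funext i
        exact (Ideal.mem_bot).mp (this i)
      · intro x
        obtain ⟨c, hc⟩ := L.b_span x
        exact ⟨c, hc.symm⟩)

theorem coordEquiv_apply (c : Fin L.d → MvPowerSeries (Fin r) 𝒪) :
    coordEquiv L c = ∑ i, L.φ (c i) • L.b i := rfl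

theorem coordEquiv_smul (s : MvPowerSeries (Fin r) 𝒪) (c : Fin L.d → MvPowerSeries (Fin r) 𝒪) :
    coordEquiv L (s • c) = L.φ s • coordEquiv L c := by
  simp only [coordEquiv_apply, Pi.smul_apply, smul_eq_mul, map_mul, mul_smul, Finset.smul_sum]

theorem finite_N : Module.Finite (MvPowerSeries (Fin r) 𝒪) L.N := by
  refine Module.Finite.of_surjective (Fintype.linearCombination (MvPowerSeries (Fin r) 𝒪) L.b) ?_
  intro x
  obtain ⟨c, hc⟩ := L.b_span x
  refine ⟨fun i => L.φ (c i), ?_⟩
  rw [Fintype.linearCombination_apply, hc]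

theorem nontrivial_N [Nontrivial M] : Nontrivial L.N :=
  L.π_surjective.nontrivial

end

end Fermat.Agent.S57

namespace Fermat.Agent.S57

section

variable {𝒪 : Type} [CommRing 𝒪] [IsDomain 𝒪] [IsDiscreteValuationRing 𝒪]
    {r : ℕ} {R : Type} [CommRing R] [Algebra 𝒪 R]
    {M : Type} [AddCommGroup M] [Module R M] [Nontrivial M]
    (L : Algebra.PatchingLevel 𝒪 r R M ⊥)

open TensorProduct in
theorem isRegular_pi {S : Type} [CommRing S] [IsLocalRing S] (d : ℕ) [Nontrivial (Fin d → S)]
    (rs : List S) (hmem : ∀ x ∈ rs, x ∈ maximalIdeal S) (h : IsRegular S rs) :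
    IsRegular (Fin d → S) rs := by
  apply IsRegular.of_isWeaklyRegular_of_mem_maximalIdeal _ hmem
  have h1 : IsWeaklyRegular ((Fin d → S) ⊗[S] S) rs :=
    IsWeaklyRegular.isWeaklyRegular_lTensor (M₂ := Fin d → S) h.toIsWeaklyRegular
  exact ((TensorProduct.rid S (Fin d → S)).isWeaklyRegular_congr rs).mp h1

/-- The patched module is free over the power series ring acting on it. -/
theorem free_N : Module.Free (MvPowerSeries (Fin r) 𝒪) L.N := by
  obtain ⟨rs, hlen, hreg, hm⟩ := HasRegularParams.mvPowerSeries 𝒪 r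
  have hmem : ∀ x ∈ rs, x ∈ maximalIdeal (MvPowerSeries (Fin r) 𝒪) := by
    intro x hx
    rw [← hm]
    exact Ideal.subset_span hx
  have := finite_N L
  have := nontrivial_N L
  have : Nontrivial (Fin L.d → MvPowerSeries (Fin r) 𝒪) := (coordEquiv L).toEquiv.nontrivial
  have h1 : IsRegular (Fin L.d → MvPowerSeries (Fin r) 𝒪) rs := isRegular_pi L.d rs hmem hreg
  have h2 : IsRegular L.N (rs.map L.φ) := by
    refine (AddEquiv.isRegular_congr (e := coordEquiv L) ?_).mp h1
    rw [List.forall₂_map_right_iff, List.forall₂_same]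
    intro s _ c
    exact coordEquiv_smul L s c
  have h3 : ∀ z ∈ rs.map L.φ, z ∈ maximalIdeal (MvPowerSeries (Fin r) 𝒪) := by
    intro z hz
    by_contra hzu
    rw [mem_maximalIdeal, mem_nonunits_iff, not_not] at hzu
    apply h2.top_ne_smul
    have : Ideal.ofList (rs.map L.φ) = ⊤ :=
      Ideal.eq_top_of_isUnit_mem _ (Ideal.subset_span hz) hzu
    rw [this, Submodule.top_smul]
  exact free_of_isRegular (r + 1) (MvPowerSeries (Fin r) 𝒪) rs hlen hreg hm L.N (rs.map L.φ)
    (by simpa using hlen) h3 h2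

end

end Fermat.Agent.S57
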