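import Fermat.Agent.S57.ExtLemmas
import Mathlib.RingTheory.Ideal.Quotient.Noetherian
import Mathlib.RingTheory.LocalRing.Quotient

set_option autoImplicit false

open CategoryTheory Abelian RingTheory.Sequence IsLocalRing Pointwise

namespace Fermat.Agent.S57

variable {A : Type} [CommRing A]

theorem maximalIdeal_smul_lt_top [IsLocalRing A] (N : Type) [AddCommGroup N] [Module A N]
    [Module.Finite A N] [Nontrivial N] :
    maximalIdeal A • (⊤ : Submodule A N) < ⊤ := by
  rw [lt_top_iff_ne_top]
  exact (Submodule.top_ne_ideal_smul_of_le_jacobson_annihilator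
    (maximalIdeal_le_jacobson _)).symm

/-- Vanishing of `Ext` from modules supported at the closed point, from a regular sequence. -/
theorem ext_vanish_of_isRegular [IsLocalRing A] [IsNoetherianRing A]
    (N : Type) [AddCommGroup N] [Module A N] [Module.Finite A N]
    (zs : List A) (hzm : ∀ z ∈ zs, z ∈ maximalIdeal A) (hz : IsRegular N zs)
    (V : ModuleCat.{0} A) (hV : Module.Finite A V)
    (hsupp : Module.support A V ⊆ PrimeSpectrum.zeroLocus (maximalIdeal A : Set A)) :
    ∀ i < zs.length, Subsingleton (Ext V (ModuleCat.of A N) i) := by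
  have := hz.nontrivial
  exact ModuleCat.subsingleton_ext_of_exists_isRegular (maximalIdeal A) V hsupp
    (ModuleCat.of A N) (maximalIdeal_smul_lt_top N) zs hzm hz

/-- The first element of a regular system of parameters is regular on a module of full depth. -/
theorem isSMulRegular_of_isRegular [IsLocalRing A] [IsNoetherianRing A]
    (N : Type) [AddCommGroup N] [Module A N] [Module.Finite A N]
    (a : A) (rs : List A) (hreg : IsRegular A (a :: rs))
    (hm : Ideal.ofList (a :: rs) = maximalIdeal A)
    (zs : List A) (hzs : zs.length = rs.length + 1)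
    (hzm : ∀ z ∈ zs, z ∈ maximalIdeal A) (hz : IsRegular N zs) : IsSMulRegular N a := by
  have hmem : ∀ r ∈ a :: rs, r ∈ maximalIdeal A := by
    intro r hr
    rw [← hm]
    exact Ideal.subset_span hr
  obtain ⟨_, hreg_rs⟩ := (isWeaklyRegular_cons_iff A a rs).mp hreg.toIsWeaklyRegular
  have hle : maximalIdeal A ≤
      Ideal.ofList rs ⊔ Module.annihilator A (ModuleCat.of A (QuotSMulTop a A)) := by
    rw [← hm, Ideal.ofList_cons]
    refine sup_le ?_ le_sup_left
    refine le_trans ?_ le_sup_right
    rw [Ideal.span_singleton_le_iff_mem, Module.mem_annihilator]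
    intro x
    induction x using Submodule.Quotient.induction_on with
    | H x =>
      rw [← Submodule.Quotient.mk_smul, Submodule.Quotient.mk_eq_zero]
      exact Submodule.smul_mem_pointwise_smul x a ⊤ Submodule.mem_top
  have key := ext_subsingleton_of_regular (ModuleCat.of A N) (rs.length + 1)
    (fun V hV hsupp i hi => ext_vanish_of_isRegular N zs hzm hz V hV hsupp i (hzs ▸ hi))
    rs (ModuleCat.of A (QuotSMulTop a A)) (fun r hr => hmem r (List.mem_cons_of_mem _ hr))
    hreg_rs hle 1 (by omega) 0 (by omega)
  have key1 : Subsingleton (ModuleCat.of A (QuotSMulTop a A) ⟶ ModuleCat.of A N) :=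
    (Ext.linearEquiv₀ (R := A)).symm.toEquiv.subsingleton
  have key2 : Subsingleton (QuotSMulTop a A →ₗ[A] N) :=
    (ModuleCat.homLinearEquiv (S := A) (M := ModuleCat.of A (QuotSMulTop a A))
      (N := ModuleCat.of A N)).symm.toEquiv.subsingleton
  rw [isSMulRegular_iff_right_eq_zero_of_smul]
  intro v hv
  let f : QuotSMulTop a A →ₗ[A] N :=
    Submodule.liftQ _ (LinearMap.toSpanSingleton A N v) (by
      intro x hx
      obtain ⟨y, _, rfl⟩ := (Submodule.mem_smul_pointwise_iff_exists _ _ _).mp hx
      simp [LinearMap.mem_ker, mul_smul, smul_comm a y v, hv])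
  have hf : f = 0 := Subsingleton.elim _ _
  have : f ((a • (⊤ : Submodule A A)).mkQ 1) = v := by
    simp only [f, Submodule.mkQ_apply, Submodule.liftQ_apply]
    simp
  rw [← this, hf, LinearMap.zero_apply]

end Fermat.Agent.S57

namespace Fermat.Agent.S57

variable {A : Type} [CommRing A]

/-- Cutting by a regular element in the maximal ideal lowers the depth by exactly one
(the inequality we need). -/
theorem exists_isRegular_quotSMulTop [IsLocalRing A] [IsNoetherianRing A]
    (N : Type) [AddCommGroup N] [Module A N] [Module.Finite A N]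
    (a : A) (ha : a ∈ maximalIdeal A) (hreg : IsSMulRegular N a)
    (zs : List A) (n : ℕ) (hzs : zs.length = n + 1)
    (hzm : ∀ z ∈ zs, z ∈ maximalIdeal A) (hz : IsRegular N zs) :
    ∃ zs' : List A, zs'.length = n ∧ (∀ z ∈ zs', z ∈ maximalIdeal A) ∧
      IsRegular (QuotSMulTop a N) zs' := by
  have := hz.nontrivial
  have hnt : Nontrivial (QuotSMulTop a N) := nontrivial_quotSMulTop_of_mem_maximalIdeal N ha
  let k : ModuleCat.{0} A := ModuleCat.of A (A ⧸ maximalIdeal A)
  have hk_supp : Module.support A k = PrimeSpectrum.zeroLocus (maximalIdeal A : Set A) := by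
    rw [Module.support_eq_zeroLocus, Ideal.annihilator_quotient]
  have h_ext : ∀ i < n + 1, Subsingleton (Ext k (ModuleCat.of A N) i) := by
    intro i hi
    exact ext_vanish_of_isRegular N zs hzm hz k inferInstance hk_supp.subset i (hzs ▸ hi)
  have h_ext' : ∀ i < n, Subsingleton (Ext k (ModuleCat.of A (QuotSMulTop a N)) i) := by
    intro i hi
    have zero1 := AddCommGrpCat.isZero_of_iff_subsingleton.mpr (h_ext i (by omega))
    have zero2 := AddCommGrpCat.isZero_of_iff_subsingleton.mpr (h_ext (i + 1) (by omega))
    exact AddCommGrpCat.subsingleton_of_isZero <| ShortComplex.Exact.isZero_of_both_zeros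
      ((Ext.covariant_sequence_exact₃' k
        (IsSMulRegular.smulShortComplex_shortExact (M := ModuleCat.of A N) hreg)) i (i + 1) rfl)
      (zero1.eq_zero_of_src _) (zero2.eq_zero_of_tgt _)
  exact ModuleCat.exists_isRegular_of_exists_subsingleton_ext (maximalIdeal A) n
    (ModuleCat.of A (QuotSMulTop a N)) (maximalIdeal_smul_lt_top _) k hk_supp h_ext'

end Fermat.Agent.S57

namespace Fermat.Agent.S57

theorem map_mk_maximalIdeal {A : Type} [CommRing A] [IsLocalRing A] (I : Ideal A)
    [IsLocalRing (A ⧸ I)] (hI : I ≠ ⊤) :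
    (maximalIdeal A).map (Ideal.Quotient.mk I) = maximalIdeal (A ⧸ I) := by
  have := IsLocalHom.of_surjective (Ideal.Quotient.mk I) Ideal.Quotient.mk_surjective
  ext x
  obtain ⟨x, rfl⟩ := Ideal.Quotient.mk_surjective x
  simp [sup_eq_left.mpr (le_maximalIdeal hI)]

/-- A finitely generated module of full depth over a local Noetherian ring whose maximal
ideal is generated by a regular sequence is free. -/
theorem free_of_isRegular : ∀ (n : ℕ) (A : Type) [CommRing A] [IsLocalRing A]
    [IsNoetherianRing A] (rs : List A), rs.length = n → IsRegular A rs →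
    Ideal.ofList rs = maximalIdeal A →
    ∀ (N : Type) [AddCommGroup N] [Module A N] [Module.Finite A N] (zs : List A),
      zs.length = n → (∀ z ∈ zs, z ∈ maximalIdeal A) → IsRegular N zs → Module.Free A N := by
  intro n
  induction n with
  | zero =>
    intro A _ _ _ rs hlen _ hm N _ _ _ zs _ _ _
    rw [List.length_eq_zero_iff] at hlen
    subst hlen
    rw [Ideal.ofList_nil] at hm
    have hf : IsField A := IsLocalRing.isField_iff_maximalIdeal_eq.mpr hm.symm
    let := hf.toField
    exact Module.Free.of_divisionRing A N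
  | succ n ih =>
    intro A _ _ _ rs hlen hreg hm N _ _ _ zs hzs hzm hz
    obtain ⟨a, rs', rfl⟩ := List.exists_cons_of_length_eq_add_one hlen
    have hlen' : rs'.length = n := by simpa using hlen
    have ha : a ∈ maximalIdeal A := by
      rw [← hm]; exact Ideal.subset_span List.mem_cons_self
    have hNa : IsSMulRegular N a :=
      isSMulRegular_of_isRegular N a rs' hreg hm zs (by rw [hzs, hlen']) hzm hz
    obtain ⟨zs', hzlen', hzm', hz'⟩ := exists_isRegular_quotSMulTop N a ha hNa zs n hzs hzm hz
    obtain ⟨hAa, hreg'⟩ := (isRegular_cons_iff' A a rs').mp hreg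
    have hne : Ideal.span {a} ≠ (⊤ : Ideal A) := by
      intro h
      exact (maximalIdeal.isMaximal A).ne_top
        (top_le_iff.mp (h ▸ (Ideal.span_singleton_le_iff_mem _).mpr ha))
    have : Nontrivial (A ⧸ Ideal.span {a}) := Ideal.Quotient.nontrivial_iff.mpr hne
    have : IsLocalRing (A ⧸ Ideal.span {a}) :=
      IsLocalRing.of_surjective' (Ideal.Quotient.mk _) Ideal.Quotient.mk_surjective
    have hmax := map_mk_maximalIdeal (Ideal.span {a}) hne
    -- the ring side
    let e : QuotSMulTop a A ≃ₗ[A] (A ⧸ Ideal.span {a}) :=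
      Submodule.quotEquivOfEq _ _ (by simp [← Submodule.ideal_span_singleton_smul])
    have hregbar : IsRegular (A ⧸ Ideal.span {a})
        (rs'.map (Ideal.Quotient.mk (Ideal.span {a}))) := by
      refine (AddEquiv.isRegular_congr (e := e.toAddEquiv) ?_).mp hreg'
      rw [List.forall₂_same]
      intro r hr x
      obtain ⟨r, -, rfl⟩ := List.mem_map.mp hr
      induction x using Submodule.Quotient.induction_on with
      | H x => rfl
    have hmbar : Ideal.ofList (rs'.map (Ideal.Quotient.mk (Ideal.span {a}))) =
        maximalIdeal (A ⧸ Ideal.span {a}) := by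
      rw [← Ideal.map_ofList, ← hmax, ← hm, Ideal.ofList_cons, Ideal.map_sup, Ideal.map_span]
      simp
    -- the module side
    have hnt : Nontrivial (QuotSMulTop a N) := hz'.nontrivial
    have hfin : Module.Finite (A ⧸ Ideal.span {a}) (QuotSMulTop a N) :=
      Module.Finite.of_restrictScalars_finite A (A ⧸ Ideal.span {a}) (QuotSMulTop a N)
    have hzmbar : ∀ z ∈ zs'.map (Ideal.Quotient.mk (Ideal.span {a})),
        z ∈ maximalIdeal (A ⧸ Ideal.span {a}) := by
      intro z hz
      obtain ⟨z, hz1, rfl⟩ := List.mem_map.mp hz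
      rw [← hmax]
      exact Ideal.mem_map_of_mem _ (hzm' z hz1)
    have hzbar : IsRegular (QuotSMulTop a N) (zs'.map (Ideal.Quotient.mk (Ideal.span {a}))) := by
      apply IsRegular.of_isWeaklyRegular_of_mem_maximalIdeal _ hzmbar
      exact (isWeaklyRegular_map_algebraMap_iff (A ⧸ Ideal.span {a}) (QuotSMulTop a N) zs').mpr
        hz'.toIsWeaklyRegular
    have hfree : Module.Free (A ⧸ Ideal.span {a}) (QuotSMulTop a N) :=
      ih (A ⧸ Ideal.span {a}) _ (by simpa using hlen') hregbar hmbar (QuotSMulTop a N) _
        (by simpa using hzlen') hzmbar hzbar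
    have := Module.finitePresentation_of_finite A N
    exact (Module.free_quotSMulTop_iff_free A N
      ((IsLocalRing.maximalIdeal_le_jacobson ⊥) ha) hNa).mp hfree

end Fermat.Agent.S57
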