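import Mathlib.RingTheory.Depth.Rees
import Mathlib.RingTheory.Regular.Free
import Mathlib.Algebra.Category.ModuleCat.Ext.Finite

set_option autoImplicit false

open CategoryTheory Abelian RingTheory.Sequence IsLocalRing Pointwise

namespace Fermat.Agent.S57

variable {A : Type} [CommRing A]

theorem mk₀_smul_id_comp (W N : ModuleCat.{0} A) (a : A) (i : ℕ) (y : Ext W N i) :
    (Ext.mk₀ (a • 𝟙 W)).comp y (zero_add i) = a • y := by
  rw [Ext.mk₀_smul, Ext.smul_comp, Ext.mk₀_id_comp]

/-- Multiplication by a regular element is onto on `Ext^i(W, N)` when `Ext^{i+1}(W/aW, N)`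
vanishes. -/
theorem ext_eq_smul_of_subsingleton (W N : ModuleCat.{0} A) {a : A} (reg : IsSMulRegular W a)
    (i : ℕ) (h : Subsingleton (Ext (ModuleCat.of A (QuotSMulTop a W)) N (i + 1)))
    (x : Ext W N i) : ∃ y : Ext W N i, x = a • y := by
  have hS := reg.smulShortComplex_shortExact
  have h' : Subsingleton (Ext (W.smulShortComplex a).X₃ N (i + 1)) := h
  obtain ⟨y, hy⟩ := Ext.contravariant_sequence_exact₁ hS N x (add_comm 1 i)
    (Subsingleton.elim _ _)
  exact ⟨y, hy.symm.trans (mk₀_smul_id_comp W N a i y)⟩

theorem ext_subsingleton_of_quot [IsLocalRing A] [IsNoetherianRing A]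
    (W N : ModuleCat.{0} A) [Module.Finite A W] [Module.Finite A N]
    {a : A} (ha : a ∈ maximalIdeal A) (reg : IsSMulRegular W a)
    (i : ℕ) (h : Subsingleton (Ext (ModuleCat.of A (QuotSMulTop a W)) N (i + 1))) :
    Subsingleton (Ext W N i) := by
  have hfin : Module.Finite A (Ext W N i) := inferInstance
  have htop : (⊤ : Submodule A (Ext W N i)) ≤ (Ideal.span {a}) • ⊤ := by
    intro x _
    obtain ⟨y, rfl⟩ := ext_eq_smul_of_subsingleton W N reg i h x
    exact Submodule.smul_mem_smul (Ideal.mem_span_singleton_self a) Submodule.mem_top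
  have hjac : Ideal.span {a} ≤ (⊥ : Ideal A).jacobson := by
    rw [Ideal.span_singleton_le_iff_mem]
    exact (IsLocalRing.maximalIdeal_le_jacobson ⊥) ha
  have := Submodule.eq_bot_of_le_smul_of_le_jacobson_bot (Ideal.span {a}) ⊤
    (Module.Finite.fg_top) htop hjac
  exact (Submodule.subsingleton_iff A).mp (subsingleton_of_bot_eq_top this.symm)

/-- Descending induction along a regular sequence. -/
theorem ext_subsingleton_of_regular [IsLocalRing A] [IsNoetherianRing A]
    (N : ModuleCat.{0} A) [Module.Finite A N] (n : ℕ)
    (H : ∀ V : ModuleCat.{0} A, Module.Finite A V →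
      Module.support A V ⊆ PrimeSpectrum.zeroLocus (maximalIdeal A : Set A) →
        ∀ i < n, Subsingleton (Ext V N i)) :
    ∀ (rs : List A) (W : ModuleCat.{0} A) [Module.Finite A W],
      (∀ r ∈ rs, r ∈ maximalIdeal A) → IsWeaklyRegular W rs →
      maximalIdeal A ≤ Ideal.ofList rs ⊔ Module.annihilator A W →
      ∀ c, c + rs.length ≤ n → ∀ i < c, Subsingleton (Ext W N i) := by
  intro rs
  induction rs with
  | nil =>
    intro W _ _ _ hle c hc i hi
    refine H W inferInstance ?_ i (by simp at hc; omega)
    rw [Module.support_eq_zeroLocus]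
    apply PrimeSpectrum.zeroLocus_anti_mono
    simpa using hle
  | cons a rs ih =>
    intro W _ hmem hreg hle c hc i hi
    obtain ⟨hreg_a, hreg_rs⟩ := (isWeaklyRegular_cons_iff W a rs).mp hreg
    have hle' : maximalIdeal A ≤
        Ideal.ofList rs ⊔ Module.annihilator A (ModuleCat.of A (QuotSMulTop a W)) := by
      refine hle.trans ?_
      rw [Ideal.ofList_cons]
      refine sup_le (sup_le ?_ le_sup_left) ?_
      · refine le_trans ?_ le_sup_right
        rw [Ideal.span_singleton_le_iff_mem, Module.mem_annihilator]
        intro x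
        induction x using Submodule.Quotient.induction_on with
        | H x =>
          rw [← Submodule.Quotient.mk_smul, Submodule.Quotient.mk_eq_zero]
          exact Submodule.smul_mem_pointwise_smul x a ⊤ Submodule.mem_top
      · refine le_trans ?_ le_sup_right
        intro r hr
        rw [Module.mem_annihilator] at hr ⊢
        intro x
        induction x using Submodule.Quotient.induction_on with
        | H x =>
          rw [← Submodule.Quotient.mk_smul, hr x, Submodule.Quotient.mk_zero]
    have := ih (ModuleCat.of A (QuotSMulTop a W))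
      (fun r hr => hmem r (List.mem_cons_of_mem _ hr)) hreg_rs hle' (c + 1)
      (by simp only [List.length_cons] at hc; omega) (i + 1) (by omega)
    exact ext_subsingleton_of_quot W N (hmem a List.mem_cons_self) hreg_a i this

end Fermat.Agent.S57
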