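import Fermat.Agent.S57.Depth
import Mathlib.RingTheory.MvPowerSeries.Equiv
import Mathlib.RingTheory.PowerSeries.Inverse
import Mathlib.RingTheory.DiscreteValuationRing.Basic

set_option autoImplicit false

open RingTheory.Sequence IsLocalRing Pointwise

namespace Fermat.Agent.S57

/-- The maximal ideal is generated by a regular sequence of length `n`. -/
def HasRegularParams (n : ℕ) (A : Type) [CommRing A] [IsLocalRing A] : Prop :=
  ∃ rs : List A, rs.length = n ∧ IsRegular A rs ∧ Ideal.ofList rs = maximalIdeal A

theorem HasRegularParams.of_ringEquiv {n : ℕ} {A A' : Type} [CommRing A] [IsLocalRing A]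
    [CommRing A'] [IsLocalRing A'] (e : A ≃+* A') (h : HasRegularParams n A) :
    HasRegularParams n A' := by
  obtain ⟨rs, hlen, hreg, hm⟩ := h
  refine ⟨rs.map (e : A →+* A'), by simpa using hlen, ?_, ?_⟩
  · refine (AddEquiv.isRegular_congr (e := e.toAddEquiv) ?_).mp hreg
    rw [List.forall₂_map_right_iff, List.forall₂_same]
    intro r _ x
    simp
  · rw [← Ideal.map_ofList, hm]
    exact IsLocalRing.map_ringEquiv_maximalIdeal e

theorem HasRegularParams.of_dvr (𝒪 : Type) [CommRing 𝒪] [IsDomain 𝒪]
    [IsDiscreteValuationRing 𝒪] : HasRegularParams 1 𝒪 := by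
  obtain ⟨ϖ, hϖ⟩ := IsDiscreteValuationRing.exists_irreducible 𝒪
  refine ⟨[ϖ], rfl, ?_, ?_⟩
  · apply IsRegular.of_isWeaklyRegular_of_mem_maximalIdeal
    · intro r hr
      rw [List.mem_singleton] at hr
      subst hr
      exact hϖ.not_isUnit
    · rw [isWeaklyRegular_singleton_iff]
      exact isSMulRegular_iff_right_eq_zero_of_smul.mpr
        (fun x hx => (mul_eq_zero.mp hx).resolve_left hϖ.ne_zero)
  · rw [Ideal.ofList_singleton, hϖ.maximalIdeal_eq]

end Fermat.Agent.S57

namespace Fermat.Agent.S57

open PowerSeries in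
/-- Reduction modulo `X` of the power series ring, as an additive equivalence. -/
noncomputable def quotXAddEquiv (B : Type) [CommRing B] :
    QuotSMulTop (X : PowerSeries B) (PowerSeries B) ≃+ B :=
  letI : Module (PowerSeries B) B := Module.compHom B (constantCoeff (R := B))
  let f : PowerSeries B →ₗ[PowerSeries B] B :=
    { toFun := constantCoeff
      map_add' := map_add _
      map_smul' := fun r x => by
        change constantCoeff (r * x) = constantCoeff r * constantCoeff x
        exact map_mul _ _ _ }
  have hker : (X : PowerSeries B) • (⊤ : Submodule (PowerSeries B) (PowerSeries B)) =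
      LinearMap.ker f := by
    ext x
    rw [Submodule.mem_smul_pointwise_iff_exists, LinearMap.mem_ker]
    change _ ↔ constantCoeff x = 0
    rw [← X_dvd_iff]
    constructor
    · rintro ⟨y, -, rfl⟩
      exact ⟨y, rfl⟩
    · rintro ⟨y, rfl⟩
      exact ⟨y, Submodule.mem_top, rfl⟩
  have hsurj : Function.Surjective f := fun b => ⟨C b, constantCoeff_C b⟩
  ((Submodule.quotEquivOfEq _ _ hker).trans (f.quotKerEquivOfSurjective hsurj)).toAddEquiv

open PowerSeries in
theorem quotXAddEquiv_mk (B : Type) [CommRing B] (x : PowerSeries B) :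
    quotXAddEquiv B (Submodule.Quotient.mk x) = constantCoeff x := rfl

end Fermat.Agent.S57

namespace Fermat.Agent.S57

open PowerSeries in
theorem maximalIdeal_powerSeries (B : Type) [CommRing B] [IsLocalRing B] :
    maximalIdeal (PowerSeries B) = Ideal.span {X} ⊔ (maximalIdeal B).map (C (R := B)) := by
  have hmem : ∀ f : PowerSeries B, f ∈ maximalIdeal (PowerSeries B) ↔
      constantCoeff f ∈ maximalIdeal B := by
    intro f
    rw [mem_maximalIdeal, mem_maximalIdeal, mem_nonunits_iff, mem_nonunits_iff,
      isUnit_iff_constantCoeff]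
  apply le_antisymm
  · intro f hf
    rw [f.eq_X_mul_shift_add_const]
    refine Ideal.add_mem _ (Ideal.mem_sup_left ?_) (Ideal.mem_sup_right ?_)
    · exact Ideal.mul_mem_right _ _ (Ideal.mem_span_singleton_self _)
    · exact Ideal.mem_map_of_mem _ ((hmem f).mp hf)
  · refine sup_le ?_ ?_
    · rw [Ideal.span_singleton_le_iff_mem, hmem, constantCoeff_X]
      exact zero_mem _
    · rw [Ideal.map_le_iff_le_comap]
      intro b hb
      rw [Ideal.mem_comap, hmem, constantCoeff_C]
      exact hb

open PowerSeries in
theorem HasRegularParams.powerSeries {n : ℕ} {B : Type} [CommRing B] [IsLocalRing B]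
    (h : HasRegularParams n B) : HasRegularParams (n + 1) (PowerSeries B) := by
  obtain ⟨rs, hlen, hreg, hm⟩ := h
  refine ⟨X :: rs.map (C (R := B)), by simpa using hlen, ?_, ?_⟩
  · rw [isRegular_cons_iff]
    constructor
    · rw [isSMulRegular_iff_right_eq_zero_of_smul]
      intro f hf
      apply X_mul_cancel (R := B)
      rw [mul_zero]
      exact hf
    · refine (AddEquiv.isRegular_congr (e := quotXAddEquiv B) ?_).mpr hreg
      rw [List.forall₂_map_left_iff, List.forall₂_same]
      intro r _ x
      induction x using Submodule.Quotient.induction_on with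
      | H x =>
        rw [← Submodule.Quotient.mk_smul, quotXAddEquiv_mk, quotXAddEquiv_mk]
        simp
  · rw [Ideal.ofList_cons, ← Ideal.map_ofList, hm, maximalIdeal_powerSeries]

end Fermat.Agent.S57

namespace Fermat.Agent.S57

theorem HasRegularParams.mvPowerSeries (𝒪 : Type) [CommRing 𝒪] [IsDomain 𝒪]
    [IsDiscreteValuationRing 𝒪] :
    ∀ r : ℕ, HasRegularParams (r + 1) (MvPowerSeries (Fin r) 𝒪) := by
  intro r
  induction r with
  | zero =>
    exact (HasRegularParams.of_dvr 𝒪).of_ringEquiv
      (MvPowerSeries.isEmptyEquiv (Fin 0) 𝒪).symm.toRingEquiv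
  | succ r ih =>
    exact ih.powerSeries.of_ringEquiv (MvPowerSeries.finSuccEquiv 𝒪 r).symm.toRingEquiv

end Fermat.Agent.S57
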